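/-
FF19 utilities (helper75): Galois descent of linear independence for equivariant functions.
-/
import Mathlib

set_option autoImplicit false

namespace Fermat.Agent.FF19.Util

/-- **Galois descent of linear independence.**  `K/k` Galois; a family of functions `v i : X → K` which
are equivariant for an "action" `act` of `Gal(K/k)` on `X` by surjective maps, and linearly independent
over `k`, is linearly independent over `K`. -/
theorem linearIndependent_of_equivariant {k K : Type*} [Field k] [Field K] [Algebra k K]
    [IsGalois k K] {X ι : Type*} (act : (K ≃ₐ[k] K) → X → X)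
    (hsurj : ∀ σ, Function.Surjective (act σ)) (v : ι → X → K)
    (hv : ∀ i σ x, v i (act σ x) = σ (v i x)) (h : LinearIndependent k v) :
    LinearIndependent K v := by
  classical
  rw [linearIndependent_iff']
  intro s
  induction s using Finset.induction_on with
  | empty => intro g _ i hi; simp at hi
  | insert a s ha ih =>
    intro g hg
    -- conjugating a relation
    have hconj : ∀ (t : Finset ι) (c : ι → K), ∑ i ∈ t, c i • v i = 0 →
        ∀ σ : K ≃ₐ[k] K, ∑ i ∈ t, σ (c i) • v i = 0 := by
      intro t c hc σ
      funext y
      obtain ⟨x, rfl⟩ := hsurj σ y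
      have h1 := congrArg σ (congrFun hc x)
      simp only [Finset.sum_apply, Pi.smul_apply, smul_eq_mul, map_sum, map_mul, Pi.zero_apply,
        map_zero] at h1 ⊢
      rw [← h1]
      exact Finset.sum_congr rfl (fun i _ => by rw [hv])
    by_cases hga : g a = 0
    · have h1 : ∑ i ∈ s, g i • v i = 0 := by
        rw [Finset.sum_insert ha, hga, zero_smul, zero_add] at hg
        exact hg
      intro i hi
      rcases Finset.mem_insert.1 hi with rfl | hi
      · exact hga
      · exact ih g h1 i hi
    · exfalso
      -- normalise
      set c : ι → K := fun i => (g a)⁻¹ * g i with hc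
      have hca : c a = 1 := inv_mul_cancel₀ hga
      have hrel : ∑ i ∈ insert a s, c i • v i = 0 := by
        have h1 := congrArg (fun w => (g a)⁻¹ • w) hg
        simp only [Finset.smul_sum, smul_smul, smul_zero] at h1
        exact h1
      have hfix : ∀ i ∈ s, ∀ σ : K ≃ₐ[k] K, σ (c i) = c i := by
        intro i hi σ
        have h1 := hconj _ c hrel σ
        have h2 : ∑ i ∈ s, (σ (c i) - c i) • v i = 0 := by
          rw [Finset.sum_insert ha, hca, map_one] at h1
          rw [Finset.sum_insert ha, hca] at hrel
          simp only [sub_smul, Finset.sum_sub_distrib]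
          rw [sub_eq_zero]
          exact add_left_cancel (h1.trans hrel.symm)
        exact sub_eq_zero.1 (ih _ h2 i hi)
      have hrat : ∀ i ∈ insert a s, ∃ q : k, algebraMap k K q = c i := by
        intro i hi
        rcases Finset.mem_insert.1 hi with rfl | hi
        · exact ⟨1, by rw [map_one, hca]⟩
        · have h1 := (InfiniteGalois.mem_bot_iff_fixed (k := k) (K := K) (c i)).2 (hfix i hi)
          exact IntermediateField.mem_bot.1 h1
      choose! q hq using hrat
      have hrelq : ∑ i ∈ insert a s, q i • v i = 0 := by
        rw [← hrel]
        refine Finset.sum_congr rfl (fun i hi => ?_)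
        rw [← hq i hi, algebraMap_smul]
      have h1 := (linearIndependent_iff'.1 h) _ q hrelq a (Finset.mem_insert_self a s)
      have h2 := hq a (Finset.mem_insert_self a s)
      rw [h1, map_zero, hca] at h2
      exact zero_ne_one h2

end Fermat.Agent.FF19.Util
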