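/-
FF19 utilities (helper75): `GaloisRep.ratLocalizedAt ℓ` is a DVR with fraction field `ℚ`.
-/
import Mathlib
import Fermat.Prelude.Def_GaloisRep_Flat

set_option autoImplicit false

namespace Fermat.Agent.FF19.RLoc

open GaloisRep

variable (ℓ : ℕ) [Fact ℓ.Prime]

theorem span_isPrime : (Ideal.span {(ℓ : ℤ)}).IsPrime :=
  (Ideal.span_singleton_prime (by exact_mod_cast (Fact.out : ℓ.Prime).ne_zero)).2
    (Nat.prime_iff_prime_int.1 Fact.out)

omit [Fact ℓ.Prime] in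
theorem coe_algebraMap (n : ℤ) : ((algebraMap ℤ (ratLocalizedAt ℓ) n : ratLocalizedAt ℓ) : ℚ) = n := by
  simp

theorem isLocalization :
    @IsLocalization.AtPrime ℤ _ (ratLocalizedAt ℓ) _ _ (Ideal.span {(ℓ : ℤ)}) (span_isPrime ℓ) := by
  have hℓ : ℓ.Prime := Fact.out
  have := span_isPrime ℓ
  refine ⟨?_, ?_, ?_⟩
  · rintro ⟨y, hy⟩
    have hy' : ¬ (ℓ : ℤ) ∣ y := fun h => hy (Ideal.mem_span_singleton.2 h)
    have hy0 : y ≠ 0 := fun h => hy' (h ▸ dvd_zero _)
    have hmem : ((y : ℚ)⁻¹) ∈ ratLocalizedAt ℓ := by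
      show ((y : ℚ)⁻¹).den.Coprime ℓ
      rw [Rat.inv_intCast_den, if_neg hy0]
      rw [Nat.coprime_comm, hℓ.coprime_iff_not_dvd]
      intro h
      exact hy' (Int.natCast_dvd.2 h)
    refine IsUnit.of_mul_eq_one (⟨(y : ℚ)⁻¹, hmem⟩ : ratLocalizedAt ℓ) ?_
    apply Subtype.ext
    show ((algebraMap ℤ (ratLocalizedAt ℓ) y : ratLocalizedAt ℓ) : ℚ) * (y : ℚ)⁻¹ = 1
    rw [coe_algebraMap]
    exact mul_inv_cancel₀ (by exact_mod_cast hy0)
  · rintro ⟨z, hz⟩
    have hz' : z.den.Coprime ℓ := hz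
    refine ⟨(z.num, ⟨(z.den : ℤ), ?_⟩), ?_⟩
    · intro h
      have h1 : (ℓ : ℤ) ∣ (z.den : ℤ) := Ideal.mem_span_singleton.1 h
      have h2 : ℓ ∣ z.den := by exact_mod_cast h1
      exact (hℓ.coprime_iff_not_dvd.1 hz'.symm) h2
    · apply Subtype.ext
      show z * ((algebraMap ℤ (ratLocalizedAt ℓ) (z.den : ℤ) : ratLocalizedAt ℓ) : ℚ)
        = ((algebraMap ℤ (ratLocalizedAt ℓ) z.num : ratLocalizedAt ℓ) : ℚ)
      rw [coe_algebraMap, coe_algebraMap]
      exact_mod_cast Rat.mul_den_eq_num z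
  · intro x y hxy
    refine ⟨1, ?_⟩
    have h1 := congrArg (Subtype.val) hxy
    rw [coe_algebraMap, coe_algebraMap] at h1
    have h2 : x = y := by exact_mod_cast h1
    rw [h2]

instance isDVR : IsDiscreteValuationRing (ratLocalizedAt ℓ) := by
  have := span_isPrime ℓ
  have := isLocalization ℓ
  refine IsLocalization.AtPrime.isDiscreteValuationRing_of_dedekind_domain ℤ
    (P := Ideal.span {(ℓ : ℤ)}) ?_ (ratLocalizedAt ℓ)
  rw [Ne, Ideal.span_singleton_eq_bot]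
  exact_mod_cast (Fact.out : ℓ.Prime).ne_zero

example : IsPrincipalIdealRing (ratLocalizedAt ℓ) := inferInstance

instance isFractionRing : IsFractionRing (ratLocalizedAt ℓ) ℚ := by
  have := span_isPrime ℓ
  have := isLocalization ℓ
  exact IsFractionRing.isFractionRing_of_isDomain_of_isLocalization
    (Ideal.span {(ℓ : ℤ)}).primeCompl (ratLocalizedAt ℓ) ℚ

example : IsIntegrallyClosed (ratLocalizedAt ℓ) := inferInstance
example : IsDomain (ratLocalizedAt ℓ) := inferInstance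

end Fermat.Agent.FF19.RLoc
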